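import Fermat.Agent.S26.DIV.Pullback_h2384

/-!
# S26 / P14 SEESAW: abstract core (helper7004)

The seesaw theorem on `X = C × T` in the language of `Fermat/Agent/S26/Defs.lean`
(families of local equations), proved from a short list of *bridge hypotheses* about the
product (collected in `IsProductLike`) and two inputs about curves:

* `(C1)`  an effective divisor linearly equivalent to `E` is `E`   (from `l(E) = 1`, P12);
* `(K3)`  there is `F0` with `div F0 ± D + pr_C^* E` effective on the generic fibre (P13).

No cohomology, no Weil divisors: everything is done with local equations, the algebraic Hartogs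
property and height-one points.
-/

set_option autoImplicit false

universe u v

open CategoryTheory AlgebraicGeometry

namespace Fermat.Agent.S26.SEESAW.H7004

open Fermat.Agent.S26 Fermat.Agent.S26.DIV.H2384

noncomputable section

/-! ### Definitions -/

/-- A point of height one (topological form): it is not the generic point and its only proper
generization is the generic point. -/
def IsHtOne {X : Scheme.{u}} [IsIntegral X] (x : X) : Prop :=
  x ≠ genericPoint X ∧ ∀ y : X, y ⤳ x → y = x ∨ y = genericPoint X

/-- The algebraic Hartogs property: a rational function which is regular at all height-one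
generizations of `x` is regular at `x`.  (True for normal locally noetherian integral schemes.) -/
def Hartogs (X : Scheme.{u}) [IsIntegral X] : Prop :=
  ∀ (x : X) (f : X.functionField),
    (∀ ξ : X, IsHtOne ξ → ξ ⤳ x → f ∈ localRing X ξ) → f ∈ localRing X x

/-- Every `β : B` has a point `ξ` above it which is generic in `p ⁻¹ (closure {β})`.
(True for an open map with irreducible fibres.) -/
def HasGenericFibres {X B : Scheme.{u}} [IsIntegral X] [IsIntegral B] (p : X ⟶ B) : Prop :=
  ∀ β : B, ∃ ξ : X, p.base ξ = β ∧ ∀ x : X, β ⤳ p.base x → ξ ⤳ x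

/-- At a height-one point `ξ` of `X` which does not dominate `B`, some rational function of `B`
pulls back to a uniformizer of the local ring at `ξ`. -/
def HasPulledUniformizers {X B : Scheme.{u}} [IsIntegral X] [IsIntegral B] (p : X ⟶ B) : Prop :=
  ∀ ξ : X, IsHtOne ξ → p.base ξ ≠ genericPoint B →
    ∃ π : B.functionField, π ≠ 0 ∧
      ∀ f : X.functionField, f ≠ 0 → ∃ m : ℤ, IsUnitAt ξ (f * pullFun p π ^ m)

/-- `Y` is effective on the generic fibre of `p` (at its height-one points). -/
def HorizEff {X B : Scheme.{u}} [IsIntegral X] [IsIntegral B] (p : X ⟶ B) (Y : Fam X) : Prop :=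
  ∀ ξ : X, IsHtOne ξ → p.base ξ = genericPoint B →
    ((Y ξ : (X.functionField)ˣ) : X.functionField) ∈ localRing X ξ

/-- The bridge hypotheses on `X = C × T`: `pC`, `pT` the projections, `i t : C ⟶ X` the fibre
inclusions `c ↦ (c, t)` (`t` running over the closed points of `T`), `j : T ⟶ X` the section
`t ↦ (c₀, t)`. -/
structure IsProductLike {X C T : Scheme.{u}} [IsIntegral X] [IsIntegral C] [IsIntegral T]
    {ι : Type v} (pC : X ⟶ C) (pT : X ⟶ T) (i : ι → (C ⟶ X)) (j : T ⟶ X) : Prop where
  i_pC : ∀ t, i t ≫ pC = 𝟙 C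
  i_pT : ∀ t c, pT.base ((i t).base c) = pT.base ((i t).base (genericPoint C))
  j_pT : j ≫ pT = 𝟙 T
  pC_gen : pC.base (genericPoint X) = genericPoint C
  pT_gen : pT.base (genericPoint X) = genericPoint T
  hartogs : Hartogs X
  gfC : HasGenericFibres pC
  gfT : HasGenericFibres pT
  unifC : HasPulledUniformizers pC
  unifT : HasPulledUniformizers pT
  /-- Closed points over good `t` are dense: if `S ≠ X` is closed, `Z` is closed and every point
  `(c, t)` of `closure {ξ}` with `C × {t} ⊄ S` lies in `Z`, then the horizontal point `ξ` lies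
  in `Z`. -/
  dense : ∀ (S Z : Set X), IsClosed S → genericPoint X ∉ S → IsClosed Z →
    ∀ ξ : X, pT.base ξ = genericPoint T →
      (∀ (t : ι) (c : C), (i t).base (genericPoint C) ∉ S → ξ ⤳ (i t).base c →
        (i t).base c ∈ Z) → ξ ∈ Z

/-! ### General lemmas -/

section General

variable {X : Scheme.{u}} [IsIntegral X]

theorem hartogs_unit (hX : Hartogs X) {x : X} {f : X.functionField}
    (h : ∀ ξ : X, IsHtOne ξ → ξ ⤳ x → IsUnitAt ξ f) : IsUnitAt x f :=
  ⟨hX x f fun ξ hξ hx => (h ξ hξ hx).1, hX x f⁻¹ fun ξ hξ hx => (h ξ hξ hx).2⟩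

/-- For a Cartier family, the local equation at `x` is a local equation at every generization. -/
theorem isUnitAt_apply_iff {D : Fam X} (hD : D.IsCartier) {ξ x : X} (h : ξ ⤳ x) :
    IsUnitAt ξ ((D x : (X.functionField)ˣ) : X.functionField) ↔
      IsUnitAt ξ ((D ξ : (X.functionField)ˣ) : X.functionField) := by
  have h1 := isCartier_isUnitAt_of_specializes hD h
  constructor
  · intro h2
    have := isUnitAt_mul h1 h2
    rwa [← Units.val_mul, div_mul_cancel] at this
  · intro h2
    have := isUnitAt_mul (isUnitAt_inv h1) h2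
    rwa [← Units.val_inv_eq_inv_val, inv_div, ← Units.val_mul, div_mul_cancel] at this

theorem mem_localRing_apply_iff {D : Fam X} (hD : D.IsCartier) {ξ x : X} (h : ξ ⤳ x) :
    ((D x : (X.functionField)ˣ) : X.functionField) ∈ localRing X ξ ↔
      ((D ξ : (X.functionField)ˣ) : X.functionField) ∈ localRing X ξ := by
  have h1 := isCartier_isUnitAt_of_specializes hD h
  constructor
  · intro h2
    have := Subring.mul_mem _ h1.1 h2
    rwa [← Units.val_mul, div_mul_cancel] at this
  · intro h2
    have := Subring.mul_mem _ h1.2 h2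
    rwa [← Units.val_inv_eq_inv_val, inv_div, ← Units.val_mul, div_mul_cancel] at this

theorem isUnitAt_mul_iff_left {x : X} {f g : X.functionField} (hg : IsUnitAt x g) (hg0 : g ≠ 0) :
    IsUnitAt x (f * g) ↔ IsUnitAt x f := by
  constructor
  · intro h
    have := isUnitAt_mul h (isUnitAt_inv hg)
    rwa [mul_assoc, mul_inv_cancel₀ hg0, mul_one] at this
  · intro h
    exact isUnitAt_mul h hg

theorem isUnitAt_mul_iff_right {x : X} {f g : X.functionField} (hf : IsUnitAt x f) (hf0 : f ≠ 0) :
    IsUnitAt x (f * g) ↔ IsUnitAt x g := by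
  rw [mul_comm]; exact isUnitAt_mul_iff_left hf hf0

end General

section Maps

variable {X B : Scheme.{u}} [IsIntegral X] [IsIntegral B]

theorem specializes_of_vertical {p : X ⟶ B} (hp : HasGenericFibres p)
    (hgen : p.base (genericPoint X) = genericPoint B) {ξ : X} (hξ : IsHtOne ξ)
    (hv : p.base ξ ≠ genericPoint B) {x : X} (hx : p.base ξ ⤳ p.base x) : ξ ⤳ x := by
  obtain ⟨ξ₀, h0, h1⟩ := hp (p.base ξ)
  have h2 : ξ₀ ⤳ ξ := h1 ξ specializes_rfl
  rcases hξ.2 ξ₀ h2 with h3 | h3
  · rw [← h3]; exact h1 x hx
  · exfalso; apply hv; rw [← h0, h3, hgen]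

theorem eq_of_vertical {p : X ⟶ B} (hp : HasGenericFibres p)
    (hgen : p.base (genericPoint X) = genericPoint B) {ξ ξ' : X} (hξ : IsHtOne ξ)
    (hξ' : IsHtOne ξ') (hv' : p.base ξ' ≠ genericPoint B) (h : p.base ξ' ⤳ p.base ξ) :
    ξ' = ξ := by
  have h1 : ξ' ⤳ ξ := specializes_of_vertical hp hgen hξ' hv' h
  rcases hξ.2 ξ' h1 with h2 | h2
  · exact h2
  · exact absurd h2 hξ'.1

omit [IsIntegral X] [IsIntegral B] in
theorem map_specializes (p : X ⟶ B) {x y : X} (h : x ⤳ y) : p.base x ⤳ p.base y :=
  p.base.hom.map_specializes h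

theorem eq_genericPoint_of_specializes {b : B} (h : b ⤳ genericPoint B) : b = genericPoint B :=
  (h.antisymm (DIV.H2384.genericPoint_specializes b)).eq

/-- The local homomorphism on stalks reflects units. -/
theorem isUnitAt_of_isUnitAt_pullFun (p : X ⟶ B) (x : X) {f : B.functionField}
    (hf : f ∈ localRing B (p.base x)) (h : IsUnitAt x (pullFun p f)) (h0 : pullFun p f ≠ 0) :
    IsUnitAt (p.base x) f := by
  obtain ⟨a, rfl⟩ := hf
  rw [pullFun_algebraMap_at] at h h0
  rcases isUnitAt_algebraMap_iff.mp h with h1 | h1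
  · have h2 : IsUnit a := (isUnit_map_iff (p.stalkMap x).hom a).mp h1
    exact isUnitAt_algebraMap_of_isUnit h2
  · rw [h1, map_zero] at h0
    exact absurd rfl h0

theorem pullFun_zpow (p : X ⟶ B) (hgen : p.base (genericPoint X) = genericPoint B)
    (f : B.functionField) (m : ℤ) : pullFun p (f ^ m) = pullFun p f ^ m :=
  map_zpow₀ (pullHom p hgen) f m

theorem pullFun_mul_dom (p : X ⟶ B) (hgen : p.base (genericPoint X) = genericPoint B)
    (f g : B.functionField) : pullFun p (f * g) = pullFun p f * pullFun p g :=
  map_mul (pullHom p hgen) f g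

theorem pullFun_ne_zero_dom (p : X ⟶ B) (hgen : p.base (genericPoint X) = genericPoint B)
    {f : B.functionField} (hf : f ≠ 0) : pullFun p f ≠ 0 := by
  intro h
  apply hf
  apply pullFun_injective_of_dominant p hgen
  rw [h, pullFun_zero]

/-- Pulling back along `p` and then along a section `s` of `p` is the identity. -/
theorem pullFun_section (s : B ⟶ X) (p : X ⟶ B) (hs : s ≫ p = 𝟙 B) (f : B.functionField) :
    pullFun s (pullFun p f) = f := by
  have hb : p.base (s.base (genericPoint B)) = genericPoint B := by
    have : (s ≫ p).base (genericPoint B) = genericPoint B := by rw [hs]; rfl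
    exact this
  have hf : f ∈ localRing B (p.base (s.base (genericPoint B))) := by
    rw [hb, localRing_genericPoint]; trivial
  rw [← pullFun_comp s p hf, hs, pullFun_id]

end Maps


/-! ### The seesaw argument -/

section Main

variable {X C T : Scheme.{u}} [IsIntegral X] [IsIntegral C] [IsIntegral T] {ι : Type v}
  {pC : X ⟶ C} {pT : X ⟶ T} {i : ι → (C ⟶ X)} {j : T ⟶ X}

omit [IsIntegral X] [IsIntegral C] [IsIntegral T] in
theorem pC_i_base (hic : ∀ t, i t ≫ pC = 𝟙 C) (t : ι) (c : C) :
    pC.base ((i t).base c) = c := by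
  have : (i t ≫ pC).base c = c := by rw [hic t]; rfl
  exact this

omit [IsIntegral X] [IsIntegral C] [IsIntegral T] in
theorem pT_j_base (hj : j ≫ pT = 𝟙 T) (τ : T) : pT.base (j.base τ) = τ := by
  have : (j ≫ pT).base τ = τ := by rw [hj]; rfl
  exact this

/-- Step A1: a horizontally effective Cartier family is effective along every good fibre. -/
theorem eff_on_good_fibre (S : IsProductLike pC pT i j) {Y : Fam X} (hY : Y.IsCartier)
    (hYh : HorizEff pT Y) (t : ι) (ht : ¬ Y.InSupp ((i t).base (genericPoint C))) (c : C) :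
    ((Y ((i t).base c) : (X.functionField)ˣ) : X.functionField) ∈
      localRing X ((i t).base c) := by
  apply S.hartogs
  intro ξ hξ hx
  rw [mem_localRing_apply_iff hY hx]
  by_cases hv : pT.base ξ = genericPoint T
  · exact hYh ξ hξ hv
  · have h1 : ξ ⤳ (i t).base (genericPoint C) :=
      specializes_of_vertical S.gfT S.pT_gen hξ hv
        (by rw [← S.i_pT t c]; exact map_specializes pT hx)
    exact (not_inSupp_iff.mp (not_inSupp_of_specializes hY h1 ht)).1

/-- Steps A2-A4: on a good fibre, the restriction of `Y = W + pr_C^* E` is the divisor `E`. -/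
theorem same_on_good_fibre (S : IsProductLike pC pT i j) {E : Fam C} (hE : E.IsCartier)
    (hE1 : ∀ E' : Fam C, E'.IsCartier → E'.IsEffective → E'.LinEquiv E → E'.Same E)
    {W : Fam X} (hW : W.IsCartier) (hYh : HorizEff pT (W * Fam.pullback pC E)) (t : ι)
    (h1 : (Fam.pullc (i t) W).LinEquiv 1)
    (ht : ¬ (W * Fam.pullback pC E).InSupp ((i t).base (genericPoint C))) :
    (Fam.pullback (i t) (W * Fam.pullback pC E)).Same E := by
  have hEgen : ¬ E.InSupp (pC.base (genericPoint X)) := by
    rw [S.pC_gen]; exact not_inSupp_genericPoint E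
  have hPE : (Fam.pullback pC E).IsCartier := pullback_isCartier pC hE hEgen
  have hY : (W * Fam.pullback pC E).IsCartier := isCartier_mul hW hPE
  apply hE1
  · exact pullback_isCartier (i t) hY ht
  · intro c
    rw [pullback_apply_val (i t) hY ht]
    exact pullFun_mem_localRing (i t) c (eff_on_good_fibre S hY hYh t ht c)
  · have e1 : (Fam.pullc (i t) (W * Fam.pullback pC E)).LinEquiv
        (Fam.pullback (i t) (W * Fam.pullback pC E)) := pullc_linEquiv_pullback (i t) hY ht
    have e2 : Fam.pullc (i t) (W * Fam.pullback pC E) =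
        Fam.pullc (i t) W * Fam.pullc (i t) (Fam.pullback pC E) := pullc_mul (i t) hW hPE
    have e3 : (Fam.pullc (i t) (Fam.pullback pC E)).LinEquiv E := by
      have a1 : (Fam.pullc pC E).LinEquiv (Fam.pullback pC E) :=
        pullc_linEquiv_pullback pC hE hEgen
      have a2 := pullc_linEquiv (i t) (pullc_isCartier pC hE) hPE a1
      have a3 : Fam.pullc (i t) (Fam.pullc pC E) = Fam.pullc (𝟙 C) E := by
        rw [← pullc_comp (i t) pC hE, S.i_pC t]
      have a4 : (Fam.pullc (𝟙 C) E).LinEquiv (Fam.pullback (𝟙 C) E) :=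
        pullc_linEquiv_pullback (𝟙 C) hE (not_inSupp_genericPoint E)
      rw [pullback_id] at a4
      rw [a3] at a2
      exact linEquiv_trans (linEquiv_symm a2) a4
    have e4 : (Fam.pullc (i t) (W * Fam.pullback pC E)).LinEquiv E := by
      rw [e2]
      have := linEquiv_mul h1 e3
      rwa [one_mul] at this
    exact linEquiv_trans (linEquiv_symm e1) e4

/-- Step B: `Y` has no horizontal component which dominates `C`. -/
theorem not_inSupp_of_dominant (S : IsProductLike pC pT i j) {E : Fam C} (hE : E.IsCartier)
    (hE1 : ∀ E' : Fam C, E'.IsCartier → E'.IsEffective → E'.LinEquiv E → E'.Same E)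
    {W : Fam X} (hW : W.IsCartier) (hYh : HorizEff pT (W * Fam.pullback pC E))
    (h1 : ∀ t, (Fam.pullc (i t) W).LinEquiv 1) (ξ : X) (hξT : pT.base ξ = genericPoint T)
    (hξC : pC.base ξ = genericPoint C) : ¬ (W * Fam.pullback pC E).InSupp ξ := by
  have hEgen : ¬ E.InSupp (pC.base (genericPoint X)) := by
    rw [S.pC_gen]; exact not_inSupp_genericPoint E
  have hPE : (Fam.pullback pC E).IsCartier := pullback_isCartier pC hE hEgen
  have hY : (W * Fam.pullback pC E).IsCartier := isCartier_mul hW hPE
  intro hin
  have hmem : ξ ∈ pC.base ⁻¹' {c | E.InSupp c} := by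
    refine S.dense {x | (W * Fam.pullback pC E).InSupp x} (pC.base ⁻¹' {c | E.InSupp c})
      (isClosed_setOf_inSupp hY) (not_inSupp_genericPoint _)
      ((isClosed_setOf_inSupp hE).preimage pC.continuous) ξ hξT ?_
    intro t c ht hsp
    show E.InSupp (pC.base ((i t).base c))
    rw [pC_i_base S.i_pC t c]
    intro hEc
    have hsame := same_on_good_fibre S hE hE1 hW hYh t (h1 t) ht c
    have hu : IsUnitAt c ((Fam.pullback (i t) (W * Fam.pullback pC E) c :
        (C.functionField)ˣ) : C.functionField) := by
      have := isUnitAt_mul hsame hEc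
      rwa [← Units.val_mul, div_mul_cancel] at this
    rw [pullback_apply_val (i t) hY ht] at hu
    have hx : IsUnitAt ((i t).base c) (((W * Fam.pullback pC E) ((i t).base c) :
        (X.functionField)ˣ) : X.functionField) :=
      isUnitAt_of_isUnitAt_pullFun (i t) c (eff_on_good_fibre S hY hYh t ht c) hu
        (pullFun_apply_ne_zero (i t) hY ht c)
    exact not_inSupp_of_specializes hY hsp (not_inSupp_iff.mpr hx) hin
  have hmem' : E.InSupp (pC.base ξ) := hmem
  rw [hξC] at hmem'
  exact not_inSupp_genericPoint E hmem'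

/-- There is a good fibre. -/
theorem exists_good_fibre (S : IsProductLike pC pT i j) {Y : Fam X} (hY : Y.IsCartier) :
    ∃ t : ι, ¬ Y.InSupp ((i t).base (genericPoint C)) := by
  by_contra hno
  exact S.dense {x | Y.InSupp x} ∅ (isClosed_setOf_inSupp hY) (not_inSupp_genericPoint Y)
    isClosed_empty (genericPoint X) S.pT_gen (fun t _ ht _ => absurd ⟨t, ht⟩ hno)

/-- Step C: `W = Y - pr_C^* E` is a unit at every horizontal height-one point. -/
theorem isUnitAt_of_horizontal (S : IsProductLike pC pT i j) {E : Fam C} (hE : E.IsCartier)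
    (hE1 : ∀ E' : Fam C, E'.IsCartier → E'.IsEffective → E'.LinEquiv E → E'.Same E)
    {W : Fam X} (hW : W.IsCartier) (hYh : HorizEff pT (W * Fam.pullback pC E))
    (h1 : ∀ t, (Fam.pullc (i t) W).LinEquiv 1) (ξ : X) (hξ : IsHtOne ξ)
    (hξT : pT.base ξ = genericPoint T) :
    IsUnitAt ξ ((W ξ : (X.functionField)ˣ) : X.functionField) := by
  have hEgen : ¬ E.InSupp (pC.base (genericPoint X)) := by
    rw [S.pC_gen]; exact not_inSupp_genericPoint E
  have hPE : (Fam.pullback pC E).IsCartier := pullback_isCartier pC hE hEgen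
  have hY : (W * Fam.pullback pC E).IsCartier := isCartier_mul hW hPE
  have hYval : ∀ x : X, (((W * Fam.pullback pC E) x : (X.functionField)ˣ) : X.functionField) =
      ((W x : (X.functionField)ˣ) : X.functionField) *
        ((Fam.pullback pC E x : (X.functionField)ˣ) : X.functionField) := fun x => by
    rw [Pi.mul_apply, Units.val_mul]
  by_cases hξC : pC.base ξ = genericPoint C
  · have hYu := not_inSupp_iff.mp (not_inSupp_of_dominant S hE hE1 hW hYh h1 ξ hξT hξC)
    have hPEξ : IsUnitAt ξ ((Fam.pullback pC E ξ : (X.functionField)ˣ) : X.functionField) := by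
      rw [pullback_apply_val pC hE hEgen]
      apply isUnitAt_pullFun pC ξ
      rw [hξC]; exact isUnitAt_genericPoint _
    rw [hYval] at hYu
    exact (isUnitAt_mul_iff_left hPEξ (Units.ne_zero _)).mp hYu
  · obtain ⟨t, ht⟩ := exists_good_fibre (i := i) S hY
    have hpCx : pC.base ((i t).base (pC.base ξ)) = pC.base ξ := pC_i_base S.i_pC t _
    have hξx : ξ ⤳ (i t).base (pC.base ξ) :=
      specializes_of_vertical S.gfC S.pC_gen hξ hξC (by rw [hpCx])
    obtain ⟨z, hz0, hz⟩ := S.unifC ξ hξ hξC
    obtain ⟨m, hm⟩ := hz (((W * Fam.pullback pC E) ((i t).base (pC.base ξ)) :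
      (X.functionField)ˣ) : X.functionField) (Units.ne_zero _)
    have hz'0 : pullFun pC z ≠ 0 := pullFun_ne_zero_dom pC S.pC_gen hz0
    -- the modified local equation is a unit at `x = (c, t)`
    have hunit : IsUnitAt ((i t).base (pC.base ξ))
        ((((W * Fam.pullback pC E) ((i t).base (pC.base ξ)) : (X.functionField)ˣ) :
          X.functionField) * pullFun pC z ^ m) := by
      apply hartogs_unit S.hartogs
      intro ξ' hξ' hsp
      by_cases heq : ξ' = ξ
      · rw [heq]; exact hm
      · have hC' : pC.base ξ' = genericPoint C := by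
          by_contra hne
          apply heq
          exact eq_of_vertical S.gfC S.pC_gen hξ hξ' hne
            (by have := map_specializes pC hsp; rwa [hpCx] at this)
        have hz' : IsUnitAt ξ' (pullFun pC z) := by
          apply isUnitAt_pullFun pC ξ'
          rw [hC']; exact isUnitAt_genericPoint _
        have hY' : ¬ (W * Fam.pullback pC E).InSupp ξ' := by
          by_cases hT' : pT.base ξ' = genericPoint T
          · exact not_inSupp_of_dominant S hE hE1 hW hYh h1 ξ' hT' hC'
          · have h2 : ξ' ⤳ (i t).base (genericPoint C) :=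
              specializes_of_vertical S.gfT S.pT_gen hξ' hT'
                (by rw [← S.i_pT t (pC.base ξ)]; exact map_specializes pT hsp)
            exact not_inSupp_of_specializes hY h2 ht
        have hYx := (isUnitAt_apply_iff hY hsp).mpr (not_inSupp_iff.mp hY')
        exact isUnitAt_mul hYx (isUnitAt_zpow hz' m)
    have hc1 := isUnitAt_pullFun (i t) (pC.base ξ) hunit
    have hω : pC.base ((i t).base (genericPoint C)) = genericPoint C := pC_i_base S.i_pC t _
    have hz'ω : IsUnitAt ((i t).base (genericPoint C)) (pullFun pC z) := by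
      apply isUnitAt_pullFun pC
      rw [hω]; exact isUnitAt_genericPoint _
    have hYω := isUnitAt_map_genericPoint (i t) hY ht (pC.base ξ)
    rw [pullFun_mul (i t) hYω.1 (isUnitAt_zpow hz'ω m).1] at hc1
    have hzm : pullFun (i t) (pullFun pC z ^ m) = z ^ m := by
      rw [← pullFun_zpow pC S.pC_gen, pullFun_section (i t) pC (S.i_pC t)]
    rw [hzm] at hc1
    have hsame := same_on_good_fibre S hE hE1 hW hYh t (h1 t) ht (pC.base ξ)
    rw [coe_div_units, pullback_apply_val (i t) hY ht] at hsame
    have hne1 := pullFun_apply_ne_zero (i t) hY ht (pC.base ξ)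
    have hEz : IsUnitAt (pC.base ξ)
        (((E (pC.base ξ) : (C.functionField)ˣ) : C.functionField) * z ^ m) := by
      have h3 := isUnitAt_mul hc1 (isUnitAt_inv hsame)
      have h4 : pullFun (i t) (((W * Fam.pullback pC E) ((i t).base (pC.base ξ)) :
          (X.functionField)ˣ) : X.functionField) * z ^ m *
          (pullFun (i t) (((W * Fam.pullback pC E) ((i t).base (pC.base ξ)) :
          (X.functionField)ˣ) : X.functionField) /
            ((E (pC.base ξ) : (C.functionField)ˣ) : C.functionField))⁻¹ =
          ((E (pC.base ξ) : (C.functionField)ˣ) : C.functionField) * z ^ m := by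
        have hne2 : ((E (pC.base ξ) : (C.functionField)ˣ) : C.functionField) ≠ 0 :=
          Units.ne_zero _
        field_simp
      rwa [h4] at h3
    have hEz' := isUnitAt_pullFun pC ξ hEz
    rw [pullFun_mul_dom pC S.pC_gen, pullFun_zpow pC S.pC_gen] at hEz'
    have hPEξ : ((Fam.pullback pC E ξ : (X.functionField)ˣ) : X.functionField) =
        pullFun pC ((E (pC.base ξ) : (C.functionField)ˣ) : C.functionField) :=
      pullback_apply_val pC hE hEgen ξ
    rw [← hPEξ] at hEz'
    have hYξ : IsUnitAt ξ ((((W * Fam.pullback pC E) ξ : (X.functionField)ˣ) :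
        X.functionField) * pullFun pC z ^ m) := by
      have h3 := isCartier_isUnitAt_of_specializes hY hξx
      have h5 := isUnitAt_mul h3 hm
      rw [coe_div_units] at h5
      have h6 : (((W * Fam.pullback pC E) ξ : (X.functionField)ˣ) : X.functionField) /
          (((W * Fam.pullback pC E) ((i t).base (pC.base ξ)) : (X.functionField)ˣ) :
            X.functionField) *
          ((((W * Fam.pullback pC E) ((i t).base (pC.base ξ)) : (X.functionField)ˣ) :
            X.functionField) * pullFun pC z ^ m) =
          (((W * Fam.pullback pC E) ξ : (X.functionField)ˣ) : X.functionField) *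
            pullFun pC z ^ m := by
        have hne3 : (((W * Fam.pullback pC E) ((i t).base (pC.base ξ)) : (X.functionField)ˣ) :
            X.functionField) ≠ 0 := Units.ne_zero _
        field_simp
      rwa [h6] at h5
    have h7 := isUnitAt_div hYξ hEz'
    have h8 : (((W * Fam.pullback pC E) ξ : (X.functionField)ˣ) : X.functionField) *
        pullFun pC z ^ m /
        (((Fam.pullback pC E ξ : (X.functionField)ˣ) : X.functionField) * pullFun pC z ^ m) =
        ((W ξ : (X.functionField)ˣ) : X.functionField) := by
      rw [hYval]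
      have hne4 : ((Fam.pullback pC E ξ : (X.functionField)ˣ) : X.functionField) ≠ 0 :=
        Units.ne_zero _
      have hne5 : pullFun pC z ^ m ≠ 0 := zpow_ne_zero m hz'0
      field_simp
    rwa [h8] at h7

/-- Steps D-E: a Cartier family which is a unit at every horizontal height-one point and whose
restriction to the section `j` is principal, is principal. -/
theorem linEquiv_one_of_vertical (S : IsProductLike pC pT i j) {W : Fam X} (hW : W.IsCartier)
    (hWh : ∀ ξ : X, IsHtOne ξ → pT.base ξ = genericPoint T →
      IsUnitAt ξ ((W ξ : (X.functionField)ˣ) : X.functionField))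
    (h2 : (Fam.pullc j W).LinEquiv 1) : W.LinEquiv 1 := by
  have hpTj : ∀ τ : T, pT.base (j.base τ) = τ := pT_j_base S.j_pT
  -- Step D: `j(η_T)` is not in the support of `W`
  have hζ : ¬ W.InSupp (j.base (genericPoint T)) := by
    rw [not_inSupp_iff]
    apply hartogs_unit S.hartogs
    intro ξ' hξ' hsp
    have h3 : pT.base ξ' = genericPoint T := by
      apply eq_genericPoint_of_specializes
      have := map_specializes pT hsp
      rwa [hpTj] at this
    exact (isUnitAt_apply_iff hW hsp).mpr (hWh ξ' hξ' h3)
  -- the restriction to `j` is principal, with equation `h`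
  have e1 : (Fam.pullback j W).LinEquiv 1 :=
    linEquiv_trans (linEquiv_symm (pullc_linEquiv_pullback j hW hζ)) h2
  obtain ⟨h, hh⟩ := linEquiv_one_iff.mp e1
  have hH0 : pullFun pT ((h : (T.functionField)ˣ) : T.functionField) ≠ 0 :=
    pullFun_ne_zero_dom pT S.pT_gen (Units.ne_zero h)
  refine linEquiv_one_iff.mpr ⟨Units.mk0 _ hH0, ?_⟩
  -- `V = W - div(pT^* h)`
  have hVc : (W * (Fam.const (Units.mk0 _ hH0))⁻¹).IsCartier := isCartier_moved W hW _
  have hVval : ∀ x : X, (((W * (Fam.const (Units.mk0 _ hH0))⁻¹) x : (X.functionField)ˣ) :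
      X.functionField) = ((W x : (X.functionField)ˣ) : X.functionField) /
        pullFun pT ((h : (T.functionField)ˣ) : T.functionField) := fun x => by
    rw [Pi.mul_apply, Pi.inv_apply, Units.val_mul, Units.val_inv_eq_inv_val, div_eq_mul_inv]
    rfl
  have hHunit : ∀ x : X, pT.base x = genericPoint T →
      IsUnitAt x (pullFun pT ((h : (T.functionField)ˣ) : T.functionField)) := fun x hx => by
    apply isUnitAt_pullFun pT x
    rw [hx]; exact isUnitAt_genericPoint _
  -- horizontal height-one points
  have hVhor : ∀ ξ : X, IsHtOne ξ → pT.base ξ = genericPoint T →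
      IsUnitAt ξ (((W * (Fam.const (Units.mk0 _ hH0))⁻¹) ξ : (X.functionField)ˣ) :
        X.functionField) := fun ξ hξ hξT => by
    rw [hVval]
    exact isUnitAt_div (hWh ξ hξ hξT) (hHunit ξ hξT)
  -- all height-one points
  have hVall : ∀ ξ : X, IsHtOne ξ →
      IsUnitAt ξ (((W * (Fam.const (Units.mk0 _ hH0))⁻¹) ξ : (X.functionField)ˣ) :
        X.functionField) := by
    intro ξ hξ
    by_cases hξT : pT.base ξ = genericPoint T
    · exact hVhor ξ hξ hξT
    · have hξj : ξ ⤳ j.base (pT.base ξ) :=
        specializes_of_vertical S.gfT S.pT_gen hξ hξT (by rw [hpTj])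
      obtain ⟨π, hπ0, hπ⟩ := S.unifT ξ hξ hξT
      obtain ⟨m, hm⟩ := hπ (((W * (Fam.const (Units.mk0 _ hH0))⁻¹) (j.base (pT.base ξ)) :
        (X.functionField)ˣ) : X.functionField) (Units.ne_zero _)
      have hπ'0 : pullFun pT π ≠ 0 := pullFun_ne_zero_dom pT S.pT_gen hπ0
      have hunit : IsUnitAt (j.base (pT.base ξ))
          ((((W * (Fam.const (Units.mk0 _ hH0))⁻¹) (j.base (pT.base ξ)) :
            (X.functionField)ˣ) : X.functionField) * pullFun pT π ^ m) := by
        apply hartogs_unit S.hartogs
        intro ξ' hξ' hsp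
        by_cases heq : ξ' = ξ
        · rw [heq]; exact hm
        · have hT' : pT.base ξ' = genericPoint T := by
            by_contra hne
            apply heq
            exact eq_of_vertical S.gfT S.pT_gen hξ hξ' hne
              (by have := map_specializes pT hsp; rwa [hpTj] at this)
          have hπ' : IsUnitAt ξ' (pullFun pT π) := by
            apply isUnitAt_pullFun pT ξ'
            rw [hT']; exact isUnitAt_genericPoint _
          exact isUnitAt_mul ((isUnitAt_apply_iff hVc hsp).mpr (hVhor ξ' hξ' hT'))
            (isUnitAt_zpow hπ' m)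
      have hc1 := isUnitAt_pullFun j (pT.base ξ) hunit
      -- everything in sight is a unit at `ζ₀ = j(η_T)`
      have hζT : pT.base (j.base (genericPoint T)) = genericPoint T := hpTj _
      have hπζ : IsUnitAt (j.base (genericPoint T)) (pullFun pT π) := by
        apply isUnitAt_pullFun pT
        rw [hζT]; exact isUnitAt_genericPoint _
      have hWζ := isUnitAt_map_genericPoint j hW hζ (pT.base ξ)
      have hHζ := hHunit (j.base (genericPoint T)) hζT
      have hVζ : IsUnitAt (j.base (genericPoint T))
          (((W * (Fam.const (Units.mk0 _ hH0))⁻¹) (j.base (pT.base ξ)) :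
            (X.functionField)ˣ) : X.functionField) := by
        rw [hVval]; exact isUnitAt_div hWζ hHζ
      rw [pullFun_mul j hVζ.1 (isUnitAt_zpow hπζ m).1] at hc1
      have hπm : pullFun j (pullFun pT π ^ m) = π ^ m := by
        rw [← pullFun_zpow pT S.pT_gen, pullFun_section j pT S.j_pT]
      rw [hπm, hVval, pullFun_div j hWζ.1 hHζ, pullFun_section j pT S.j_pT] at hc1
      -- `pullFun j (W (j τ)) / h` is a unit at `τ`
      have hsame := hh (pT.base ξ)
      rw [coe_div_units, pullback_apply_val j hW hζ] at hsame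
      have hsame' : IsUnitAt (pT.base ξ)
          (pullFun j ((W (j.base (pT.base ξ)) : (X.functionField)ˣ) : X.functionField) /
            ((h : (T.functionField)ˣ) : T.functionField)) := hsame
      have hne1 : pullFun j ((W (j.base (pT.base ξ)) : (X.functionField)ˣ) : X.functionField) /
          ((h : (T.functionField)ˣ) : T.functionField) ≠ 0 :=
        div_ne_zero (pullFun_apply_ne_zero j hW hζ (pT.base ξ)) (Units.ne_zero h)
      have hπmu : IsUnitAt (pT.base ξ) (π ^ m) := (isUnitAt_mul_iff_right hsame' hne1).mp hc1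
      have hπmu' := isUnitAt_pullFun pT ξ hπmu
      rw [pullFun_zpow pT S.pT_gen] at hπmu'
      have hVj := (isUnitAt_mul_iff_left hπmu' (zpow_ne_zero m hπ'0)).mp hm
      exact (isUnitAt_apply_iff hVc hξj).mp hVj
  -- conclusion by Hartogs
  intro x
  have hx : IsUnitAt x (((W * (Fam.const (Units.mk0 _ hH0))⁻¹) x : (X.functionField)ˣ) :
      X.functionField) := by
    apply hartogs_unit S.hartogs
    intro ξ hξ hsp
    exact (isUnitAt_apply_iff hVc hsp).mpr (hVall ξ hξ)
  rw [hVval] at hx
  rw [coe_div_units]
  exact hx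

/-- **Abstract seesaw, positive case.**  -/
theorem seesaw_of_horizEff (S : IsProductLike pC pT i j) {E : Fam C} (hE : E.IsCartier)
    (hE1 : ∀ E' : Fam C, E'.IsCartier → E'.IsEffective → E'.LinEquiv E → E'.Same E)
    {D : Fam X} (hD : D.IsCartier) (F0 : (X.functionField)ˣ)
    (hYh : HorizEff pT (D * Fam.const F0 * Fam.pullback pC E))
    (h1 : ∀ t, (Fam.pullc (i t) D).LinEquiv 1) (h2 : (Fam.pullc j D).LinEquiv 1) :
    D.LinEquiv 1 := by
  have hW : (D * Fam.const F0).IsCartier := isCartier_mul hD (isCartier_const F0)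
  have h1' : ∀ t, (Fam.pullc (i t) (D * Fam.const F0)).LinEquiv 1 := fun t => by
    rw [pullc_mul (i t) hD (isCartier_const F0), pullc_const, mul_one]; exact h1 t
  have h2' : (Fam.pullc j (D * Fam.const F0)).LinEquiv 1 := by
    rw [pullc_mul j hD (isCartier_const F0), pullc_const, mul_one]; exact h2
  have hWh := isUnitAt_of_horizontal S hE hE1 hW hYh h1'
  have h3 := linEquiv_one_of_vertical S hW hWh h2'
  exact linEquiv_trans (linEquiv_symm (linEquiv_mul_const D F0)) h3

/-- **Abstract seesaw** (Step VII of the S26 route): on `X = C × T`, a Cartier divisor whose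
restrictions to all fibres `C × {t}` and to the section `{c₀} × T` are principal, is principal.
Inputs: the bridge hypotheses `IsProductLike`, the non-special divisor `E` of the curve `C`
with the uniqueness property `(C1)`, and Riemann's inequality on the generic fibre `(K3)` for
`D` or `-D`. -/
theorem seesaw (S : IsProductLike pC pT i j) {E : Fam C} (hE : E.IsCartier)
    (hE1 : ∀ E' : Fam C, E'.IsCartier → E'.IsEffective → E'.LinEquiv E → E'.Same E)
    {D : Fam X} (hD : D.IsCartier)
    (hK3 : ∃ F0 : (X.functionField)ˣ,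
      HorizEff pT (D * Fam.const F0 * Fam.pullback pC E) ∨
      HorizEff pT (D⁻¹ * Fam.const F0 * Fam.pullback pC E))
    (h1 : ∀ t, (Fam.pullc (i t) D).LinEquiv 1) (h2 : (Fam.pullc j D).LinEquiv 1) :
    D.LinEquiv 1 := by
  obtain ⟨F0, hF | hF⟩ := hK3
  · exact seesaw_of_horizEff S hE hE1 hD F0 hF h1 h2
  · have h1' : ∀ t, (Fam.pullc (i t) D⁻¹).LinEquiv 1 := fun t => by
      rw [pullc_inv (i t) hD]
      have := linEquiv_inv (h1 t)
      rwa [inv_one] at this
    have h2' : (Fam.pullc j D⁻¹).LinEquiv 1 := by
      rw [pullc_inv j hD]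
      have := linEquiv_inv h2
      rwa [inv_one] at this
    have h3 := seesaw_of_horizEff S hE hE1 (isCartier_inv hD) F0 hF h1' h2'
    have h4 := linEquiv_inv h3
    rwa [inv_inv, inv_one] at h4

end Main

end

end Fermat.Agent.S26.SEESAW.H7004
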