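import Mathlib.AlgebraicGeometry.AlgClosed.Basic
import Mathlib.AlgebraicGeometry.Morphisms.UniversallyOpen
import Mathlib.AlgebraicGeometry.PullbackCarrier
import Mathlib.AlgebraicGeometry.Geometrically.Irreducible

/-!
# Products over an algebraically closed field (S26, Mathlib only)

* `sliceSnd sX sY x hx : Y ⟶ X ×_K Y` is the slice `y ↦ (x, y)` through a `K`-point `x` of `X`;
  it is the base change of `x` (`isPullback_sliceSnd`) and its range is the fibre of the first
  projection (`range_sliceSnd`).  Similarly `sliceFst`.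
* `irreducibleSpace_pullback_of_isAlgClosed`: `K` algebraically closed, `X` irreducible and
  locally of finite type over `K`, `Y` irreducible (arbitrary `K`-scheme): `X ×_K Y` is
  irreducible.
* `geometricallyIrreducible_of_isAlgClosed`: hence `X ⟶ Spec K` is geometrically irreducible.
-/

set_option autoImplicit false

universe u

open CategoryTheory CategoryTheory.Limits AlgebraicGeometry

namespace Fermat.Agent.S26.SEESAW.H1876

variable {K : Type u} [Field K] {X Y : Scheme.{u}}
  (sX : X ⟶ Spec (CommRingCat.of K)) (sY : Y ⟶ Spec (CommRingCat.of K))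

/-- The slice `y ↦ (x, y)` through a `K`-point `x` of `X`. -/
noncomputable def sliceSnd (x : Spec (CommRingCat.of K) ⟶ X) (hx : x ≫ sX = 𝟙 _) :
    Y ⟶ pullback sX sY :=
  pullback.lift (sY ≫ x) (𝟙 Y) (by rw [Category.assoc, hx, Category.comp_id, Category.id_comp])

/-- The slice `x ↦ (x, y)` through a `K`-point `y` of `Y`. -/
noncomputable def sliceFst (y : Spec (CommRingCat.of K) ⟶ Y) (hy : y ≫ sY = 𝟙 _) :
    X ⟶ pullback sX sY :=
  pullback.lift (𝟙 X) (sX ≫ y) (by rw [Category.assoc, hy, Category.comp_id, Category.id_comp])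

@[reassoc (attr := simp)]
theorem sliceSnd_fst (x : Spec (CommRingCat.of K) ⟶ X) (hx : x ≫ sX = 𝟙 _) :
    sliceSnd sX sY x hx ≫ pullback.fst sX sY = sY ≫ x :=
  pullback.lift_fst _ _ _

@[reassoc (attr := simp)]
theorem sliceSnd_snd (x : Spec (CommRingCat.of K) ⟶ X) (hx : x ≫ sX = 𝟙 _) :
    sliceSnd sX sY x hx ≫ pullback.snd sX sY = 𝟙 Y :=
  pullback.lift_snd _ _ _

@[reassoc (attr := simp)]
theorem sliceFst_fst (y : Spec (CommRingCat.of K) ⟶ Y) (hy : y ≫ sY = 𝟙 _) :
    sliceFst sX sY y hy ≫ pullback.fst sX sY = 𝟙 X :=
  pullback.lift_fst _ _ _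

@[reassoc (attr := simp)]
theorem sliceFst_snd (y : Spec (CommRingCat.of K) ⟶ Y) (hy : y ≫ sY = 𝟙 _) :
    sliceFst sX sY y hy ≫ pullback.snd sX sY = sX ≫ y :=
  pullback.lift_snd _ _ _

/-- The slice through `x` is the base change of `x` along the first projection. -/
theorem isPullback_sliceSnd (x : Spec (CommRingCat.of K) ⟶ X) (hx : x ≫ sX = 𝟙 _) :
    IsPullback (sliceSnd sX sY x hx) sY (pullback.fst sX sY) x := by
  refine IsPullback.of_right ?_ (sliceSnd_fst sX sY x hx) (IsPullback.of_hasPullback sX sY).flip
  rw [sliceSnd_snd, hx]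
  exact IsPullback.of_horiz_isIso ⟨by simp⟩

/-- The slice through `y` is the base change of `y` along the second projection. -/
theorem isPullback_sliceFst (y : Spec (CommRingCat.of K) ⟶ Y) (hy : y ≫ sY = 𝟙 _) :
    IsPullback (sliceFst sX sY y hy) sX (pullback.snd sX sY) y := by
  refine IsPullback.of_right ?_ (sliceFst_snd sX sY y hy) (IsPullback.of_hasPullback sX sY)
  rw [sliceFst_fst, hy]
  exact IsPullback.of_horiz_isIso ⟨by simp⟩

/-- The range of the slice through `x` is the fibre of the first projection over `x`. -/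
theorem range_sliceSnd (x : Spec (CommRingCat.of K) ⟶ X) (hx : x ≫ sX = 𝟙 _) :
    Set.range (sliceSnd sX sY x hx) = (pullback.fst sX sY) ⁻¹' (Set.range x) := by
  have h := Scheme.image_preimage_eq_of_isPullback (isPullback_sliceSnd sX sY x hx).flip Set.univ
  simpa [Set.image_univ] using h

/-- The range of the slice through `y` is the fibre of the second projection over `y`. -/
theorem range_sliceFst (y : Spec (CommRingCat.of K) ⟶ Y) (hy : y ≫ sY = 𝟙 _) :
    Set.range (sliceFst sX sY y hy) = (pullback.snd sX sY) ⁻¹' (Set.range y) := by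
  have h := Scheme.image_preimage_eq_of_isPullback (isPullback_sliceFst sX sY y hy).flip Set.univ
  simpa [Set.image_univ] using h

/-- The range of the `K`-point attached to a closed point. -/
theorem range_pointOfClosedPoint [IsAlgClosed K] [LocallyOfFiniteType sX] (x : X)
    (hx : IsClosed ({x} : Set X)) : Set.range (pointOfClosedPoint sX x hx) = {x} := by
  ext z
  constructor
  · rintro ⟨a, rfl⟩
    exact pointOfClosedPoint_apply sX x hx a
  · rintro rfl
    exact ⟨IsLocalRing.closedPoint K, pointOfClosedPoint_apply sX _ hx _⟩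

/-- Over an algebraically closed field, the product of an irreducible scheme locally of finite
type with an arbitrary irreducible scheme is irreducible. -/
theorem irreducibleSpace_pullback_of_isAlgClosed [IsAlgClosed K] [LocallyOfFiniteType sX]
    [IrreducibleSpace X] [IrreducibleSpace Y] : IrreducibleSpace ↥(pullback sX sY) := by
  have hJ : JacobsonSpace X := LocallyOfFiniteType.jacobsonSpace sX
  have hopen : IsOpenMap (pullback.fst sX sY) := (pullback.fst sX sY).isOpenMap
  have hpre : IsPreirreducible (Set.univ : Set ↥(pullback sX sY)) := by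
    rw [isPreirreducible_iff_isClosed_union_isClosed]
    intro Z₁ Z₂ hZ₁ hZ₂ hcov
    have hX₁ : IsClosed ((pullback.fst sX sY '' Z₁ᶜ)ᶜ) := (hopen _ hZ₁.isOpen_compl).isClosed_compl
    have hX₂ : IsClosed ((pullback.fst sX sY '' Z₂ᶜ)ᶜ) := (hopen _ hZ₂.isOpen_compl).isClosed_compl
    have hcl : closedPoints X ⊆ (pullback.fst sX sY '' Z₁ᶜ)ᶜ ∪ (pullback.fst sX sY '' Z₂ᶜ)ᶜ := by
      intro x hx'
      have hx : IsClosed ({x} : Set X) := hx'
      have hxt : pointOfClosedPoint sX x hx ≫ sX = 𝟙 _ := pointOfClosedPoint_comp sX x hx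
      have hfib : (pullback.fst sX sY) ⁻¹' {x} =
          Set.range (sliceSnd sX sY (pointOfClosedPoint sX x hx) hxt) := by
        rw [range_sliceSnd, range_pointOfClosedPoint]
      have hirr : IsPreirreducible ((pullback.fst sX sY) ⁻¹' {x}) := by
        rw [hfib, ← Set.image_univ]
        exact ((IrreducibleSpace.isIrreducible_univ Y).image _
          (sliceSnd sX sY _ hxt).continuous.continuousOn).isPreirreducible
      rcases (isPreirreducible_iff_isClosed_union_isClosed.1 hirr) Z₁ Z₂ hZ₁ hZ₂
        (fun z _ => hcov (Set.mem_univ z)) with h | h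
      · left
        rintro ⟨z, hz, hzx⟩
        exact hz (h hzx)
      · right
        rintro ⟨z, hz, hzx⟩
        exact hz (h hzx)
    have huniv : (Set.univ : Set X) ⊆
        (pullback.fst sX sY '' Z₁ᶜ)ᶜ ∪ (pullback.fst sX sY '' Z₂ᶜ)ᶜ := by
      rw [← closure_closedPoints (X := X)]
      exact closure_minimal hcl (hX₁.union hX₂)
    rcases (isPreirreducible_iff_isClosed_union_isClosed.1
      (PreirreducibleSpace.isPreirreducible_univ (X := X))) _ _ hX₁ hX₂ huniv with h | h
    · left
      intro z _
      by_contra hz
      exact h (Set.mem_univ (pullback.fst sX sY z)) ⟨z, hz, rfl⟩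
    · right
      intro z _
      by_contra hz
      exact h (Set.mem_univ (pullback.fst sX sY z)) ⟨z, hz, rfl⟩
  have hne : Nonempty ↥(pullback sX sY) := inferInstance
  exact { isPreirreducible_univ := hpre, toNonempty := hne }

/-- Over an algebraically closed field, an irreducible scheme locally of finite type is
geometrically irreducible. -/
theorem geometricallyIrreducible_of_isAlgClosed [IsAlgClosed K] [LocallyOfFiniteType sX]
    [IrreducibleSpace X] : GeometricallyIrreducible sX := by
  refine ⟨geometrically_iff_of_isClosedUnderIsomorphisms.mpr fun L _ y ↦ ?_⟩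
  exact irreducibleSpace_pullback_of_isAlgClosed sX y

/-- Over an algebraically closed field `K`, the preimage of an irreducible subset of `Y` under
the projection `X ×_K Y ⟶ Y` is irreducible, if `X` is irreducible and locally of finite type. -/
theorem isIrreducible_preimage_snd [IsAlgClosed K] [LocallyOfFiniteType sX]
    [IrreducibleSpace X] {s : Set Y} (hs : IsIrreducible s) :
    IsIrreducible ((pullback.snd sX sY) ⁻¹' s) := by
  have := geometricallyIrreducible_of_isAlgClosed sX
  exact (pullback.snd sX sY).isIrreducible_preimage (pullback.snd sX sY).isOpenMap hs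

/-- Over an algebraically closed field `K`, the preimage of an irreducible subset of `X` under
the projection `X ×_K Y ⟶ X` is irreducible, if `Y` is irreducible and locally of finite type. -/
theorem isIrreducible_preimage_fst [IsAlgClosed K] [LocallyOfFiniteType sY]
    [IrreducibleSpace Y] {s : Set X} (hs : IsIrreducible s) :
    IsIrreducible ((pullback.fst sX sY) ⁻¹' s) := by
  have := geometricallyIrreducible_of_isAlgClosed sY
  exact (pullback.fst sX sY).isIrreducible_preimage (pullback.fst sX sY).isOpenMap hs

end Fermat.Agent.S26.SEESAW.H1876
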