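import Mathlib.Topology.JacobsonSpace
import Mathlib.Topology.Irreducible

/-!
# Topological core of the rigidity step (R) of SEESAW (S26 / P14)

`exists_subset_of_closedPoints_mem`: in a Jacobson space, an irreducible set `P` meeting an open
set `W`, such that every closed point of `P ∩ W` lies in one of finitely many closed sets `Z i`,
is contained in one of the `Z i`.
-/

namespace Fermat.Agent.S26.SEESAW.H1876

open Set

variable {X : Type*} [TopologicalSpace X]

/-- In a Jacobson space the closed points of a locally closed set are dense in it. -/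
theorem subset_closure_inter_closedPoints [JacobsonSpace X] {S : Set X}
    (hS : IsLocallyClosed S) : S ⊆ closure (S ∩ closedPoints X) := by
  rw [JacobsonSpace.closure_inter_closedPoints_eq_closure hS]
  exact subset_closure

/-- A locally closed set in a Jacobson space all of whose closed points lie in a closed set `Z`
is contained in `Z`. -/
theorem subset_of_closedPoints_subset [JacobsonSpace X] {S Z : Set X}
    (hS : IsLocallyClosed S) (hZ : IsClosed Z)
    (h : ∀ x ∈ S, IsClosed ({x} : Set X) → x ∈ Z) : S ⊆ Z := by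
  refine (subset_closure_inter_closedPoints hS).trans ?_
  rw [hZ.closure_subset_iff]
  rintro x ⟨hxS, hx⟩
  exact h x hxS hx

/-- An irreducible set that meets the open set `W` and is covered, inside `W`, by finitely many
closed sets is contained in one of them. -/
theorem exists_subset_of_inter_subset_iUnion {ι : Type*} [Finite ι] {P W : Set X}
    (hP : IsIrreducible P) (hW : IsOpen W) (hne : (P ∩ W).Nonempty)
    (Z : ι → Set X) (hZ : ∀ i, IsClosed (Z i)) (h : P ∩ W ⊆ ⋃ i, Z i) :
    ∃ i, P ⊆ Z i := by
  classical
  have := Fintype.ofFinite ι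
  have hcover : P ⊆ ⋃₀ ((insert Wᶜ (Finset.univ.image Z) : Finset (Set X)) : Set (Set X)) := by
    intro x hx
    by_cases hxW : x ∈ W
    · obtain ⟨i, hi⟩ := mem_iUnion.1 (h ⟨hx, hxW⟩)
      exact mem_sUnion.2 ⟨Z i, by simp, hi⟩
    · exact mem_sUnion.2 ⟨Wᶜ, by simp, hxW⟩
  obtain ⟨z, hz, hPz⟩ := isIrreducible_iff_sUnion_isClosed.1 hP _ (by
    intro z hz
    rw [Finset.mem_insert, Finset.mem_image] at hz
    rcases hz with rfl | ⟨i, -, rfl⟩
    · exact hW.isClosed_compl
    · exact hZ i) hcover
  rw [Finset.mem_insert, Finset.mem_image] at hz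
  rcases hz with rfl | ⟨i, -, rfl⟩
  · obtain ⟨x, hxP, hxW⟩ := hne
    exact absurd hxW (hPz hxP)
  · exact ⟨i, hPz⟩

/-- (R-top) In a Jacobson space, a closed irreducible set `P` meeting the open set `W`, such that
every closed point of `P ∩ W` lies in one of finitely many closed sets `Z i`, is contained in
one of the `Z i`. -/
theorem exists_subset_of_closedPoints_mem [JacobsonSpace X] {ι : Type*} [Finite ι] {P W : Set X}
    (hP : IsIrreducible P) (hPc : IsClosed P) (hW : IsOpen W) (hne : (P ∩ W).Nonempty)
    (Z : ι → Set X) (hZ : ∀ i, IsClosed (Z i))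
    (h : ∀ x ∈ P ∩ W, IsClosed ({x} : Set X) → ∃ i, x ∈ Z i) :
    ∃ i, P ⊆ Z i := by
  refine exists_subset_of_inter_subset_iUnion hP hW hne Z hZ ?_
  refine subset_of_closedPoints_subset (hPc.isLocallyClosed.inter hW.isLocallyClosed)
    (isClosed_iUnion_of_finite hZ) ?_
  intro x hx hxc
  exact mem_iUnion.2 (h x hx hxc)

end Fermat.Agent.S26.SEESAW.H1876
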