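import Mathlib.AlgebraicGeometry.Morphisms.FiniteType
import Mathlib.AlgebraicGeometry.Morphisms.UniversallyOpen
import Mathlib.AlgebraicGeometry.Morphisms.Flat
import Fermat.Agent.S26.SEESAW.RTop1876

/-!
# (R) and (B) for a product `C ×_K T` in point language (S26 / P14), Mathlib only

* `fst_mem_of_closedPoints`: (R).  A point `x` of `C ×_K T` lying over the open `U ⊆ T`, such that
  every closed point `z` of `closure {x}` over `U` has first coordinate in the finite set `S` of
  closed points of `C`, has itself first coordinate in `S`.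
* `isOpen_image_snd`: the second projection of `C ×_K T` is an open map.
-/

set_option autoImplicit false

universe u

open CategoryTheory CategoryTheory.Limits AlgebraicGeometry

namespace Fermat.Agent.S26.SEESAW.H1876

variable {K : Type u} [Field K] {C T : Scheme.{u}}
  (sC : C ⟶ Spec (CommRingCat.of K)) (sT : T ⟶ Spec (CommRingCat.of K))

/-- A scheme locally of finite type over a field is a Jacobson space. -/
theorem jacobsonSpace_of_field {X : Scheme.{u}} (s : X ⟶ Spec (CommRingCat.of K))
    [LocallyOfFiniteType s] : JacobsonSpace X :=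
  LocallyOfFiniteType.jacobsonSpace s

/-- The product `C ×_K T` of two schemes locally of finite type over a field is Jacobson. -/
theorem jacobsonSpace_pullback [LocallyOfFiniteType sC] [LocallyOfFiniteType sT] :
    JacobsonSpace ↥(pullback sC sT) :=
  LocallyOfFiniteType.jacobsonSpace (pullback.fst sC sT ≫ sC)

/-- (R) in point language. -/
theorem fst_mem_of_closedPoints [LocallyOfFiniteType sC] [LocallyOfFiniteType sT]
    (x : ↥(pullback sC sT)) (U : T.Opens) (hxU : (pullback.snd sC sT) x ∈ U)
    (S : Set C) (hS : S.Finite) (hSc : ∀ c ∈ S, IsClosed ({c} : Set C))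
    (h : ∀ z : ↥(pullback sC sT), x ⤳ z → IsClosed ({z} : Set ↥(pullback sC sT)) →
      (pullback.snd sC sT) z ∈ U → (pullback.fst sC sT) z ∈ S) :
    (pullback.fst sC sT) x ∈ S := by
  have := jacobsonSpace_pullback sC sT
  have : Finite S := hS
  obtain ⟨c, hc⟩ := exists_subset_of_closedPoints_mem (X := ↥(pullback sC sT))
    (P := closure {x}) (W := (pullback.snd sC sT) ⁻¹' (U : Set T))
    isIrreducible_singleton.closure isClosed_closure
    (U.isOpen.preimage (pullback.snd sC sT).continuous)
    ⟨x, subset_closure rfl, hxU⟩
    (fun c : S => (pullback.fst sC sT) ⁻¹' {(c : C)})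
    (fun c => (hSc c c.2).preimage (pullback.fst sC sT).continuous)
    (fun z hz hzc => ⟨⟨_, h z (specializes_iff_mem_closure.2 hz.1) hzc hz.2⟩, rfl⟩)
  have hx : (pullback.fst sC sT) x = c := hc (subset_closure rfl)
  rw [hx]
  exact c.2

/-- The second projection `C ×_K T ⟶ T` is an open map. -/
theorem isOpenMap_snd : IsOpenMap (pullback.snd sC sT) :=
  (pullback.snd sC sT).isOpenMap

/-- The first projection `C ×_K T ⟶ C` is an open map. -/
theorem isOpenMap_fst : IsOpenMap (pullback.fst sC sT) :=
  (pullback.fst sC sT).isOpenMap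

end Fermat.Agent.S26.SEESAW.H1876
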